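/-
S28, package M2 (helper48): level raising `f(z) ↦ f(d z)` from level one to `Γ₀(d)`,
restriction of the level, and the effect on `q`-expansions.
-/
import Mathlib

set_option autoImplicit false

open UpperHalfPlane CongruenceSubgroup ModularForm Matrix
open scoped MatrixGroups ModularForm Pointwise

namespace Fermat.Agent.S28.H48

noncomputable section

/-- `α_N = diag(N, 1) ∈ GL(2, ℝ)`. -/
def alphaGL (N : ℕ) [NeZero N] : GL (Fin 2) ℝ :=
  Matrix.GeneralLinearGroup.mkOfDetNeZero !![(N:ℝ), 0; 0, 1]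
    (by simp [Matrix.det_fin_two, NeZero.ne])

lemma alphaGL_det (N : ℕ) [NeZero N] : (alphaGL N).det.val = (N : ℝ) := by
  simp [alphaGL, Matrix.GeneralLinearGroup.mkOfDetNeZero, Matrix.det_fin_two]

/-- Restrict the level of a modular form to a smaller subgroup. -/
def restrictLevel {Γ Γ' : Subgroup (GL (Fin 2) ℝ)} {k : ℤ} (h : Γ ≤ Γ') (f : ModularForm Γ' k) :
    ModularForm Γ k where
  toFun := f
  slash_action_eq' γ hγ := f.slash_action_eq' γ (h hγ)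
  holo' := f.holo'
  bdd_at_cusps' hc := f.bdd_at_cusps' (hc.mono h)

@[simp] lemma restrictLevel_apply {Γ Γ' : Subgroup (GL (Fin 2) ℝ)} {k : ℤ} (h : Γ ≤ Γ')
    (f : ModularForm Γ' k) (z : ℍ) : restrictLevel h f z = f z := rfl

lemma coe_restrictLevel {Γ Γ' : Subgroup (GL (Fin 2) ℝ)} {k : ℤ} (h : Γ ≤ Γ')
    (f : ModularForm Γ' k) : (restrictLevel h f : ℍ → ℂ) = f := rfl

/-- the conjugate `α γ α⁻¹` of `γ ∈ Γ₀(N)` as an element of `SL(2, ℤ)`. -/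
def conjSL (N : ℕ) [NeZero N] (γ : SL(2, ℤ)) (hγ : γ ∈ Gamma0 N) : SL(2, ℤ) :=
  ⟨!![γ 0 0, N * γ 0 1; γ 1 0 / N, γ 1 1], by
    have hN : (N : ℤ) ∣ γ 1 0 := by
      rw [Gamma0_mem] at hγ
      exact (ZMod.intCast_zmod_eq_zero_iff_dvd _ _).mp hγ
    obtain ⟨c, hc⟩ := hN
    have hN0 : (N : ℤ) ≠ 0 := by exact_mod_cast NeZero.ne N
    have hdet := γ.det_coe
    rw [Matrix.det_fin_two] at hdet
    rw [Matrix.det_fin_two_of, hc, Int.mul_ediv_cancel_left _ hN0]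
    rw [hc] at hdet
    linarith⟩

lemma mapGL_apply' (g : SL(2, ℤ)) (i j : Fin 2) :
    (Matrix.SpecialLinearGroup.mapGL ℝ g) i j = ((g i j : ℤ) : ℝ) := rfl

lemma conjSL_apply (N : ℕ) [NeZero N] (γ : SL(2, ℤ)) (hγ : γ ∈ Gamma0 N) :
    (conjSL N γ hγ) 0 0 = γ 0 0 ∧ (conjSL N γ hγ) 0 1 = N * γ 0 1 ∧
    (conjSL N γ hγ) 1 0 = γ 1 0 / N ∧ (conjSL N γ hγ) 1 1 = γ 1 1 := ⟨rfl, rfl, rfl, rfl⟩

lemma alphaGL_apply (N : ℕ) [NeZero N] :
    (alphaGL N) 0 0 = (N : ℝ) ∧ (alphaGL N) 0 1 = 0 ∧ (alphaGL N) 1 0 = 0 ∧ (alphaGL N) 1 1 = 1 :=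
  ⟨rfl, rfl, rfl, rfl⟩

lemma alphaGL_mul_mapGL (N : ℕ) [NeZero N] (γ : SL(2, ℤ)) (hγ : γ ∈ Gamma0 N) :
    alphaGL N * Matrix.SpecialLinearGroup.mapGL ℝ γ =
      Matrix.SpecialLinearGroup.mapGL ℝ (conjSL N γ hγ) * alphaGL N := by
  have hN : (N : ℤ) ∣ γ 1 0 := by
    rw [Gamma0_mem] at hγ
    exact (ZMod.intCast_zmod_eq_zero_iff_dvd _ _).mp hγ
  obtain ⟨c, hc⟩ := hN
  have hN0 : (N : ℤ) ≠ 0 := by exact_mod_cast NeZero.ne N
  obtain ⟨h00, h01, h10, h11⟩ := conjSL_apply N γ hγ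
  obtain ⟨a00, a01, a10, a11⟩ := alphaGL_apply N
  rw [hc, Int.mul_ediv_cancel_left _ hN0] at h10
  apply Matrix.GeneralLinearGroup.ext
  intro i j
  fin_cases i <;> fin_cases j <;>
    simp [Matrix.GeneralLinearGroup.coe_mul, Matrix.mul_apply, Fin.sum_univ_two, mapGL_apply',
      h00, h01, h10, h11, a00, a01, a10, a11, hc] <;> ring

lemma Gamma0_le_conj (N : ℕ) [NeZero N] :
    (Gamma0 N : Subgroup (GL (Fin 2) ℝ)) ≤ ConjAct.toConjAct (alphaGL N)⁻¹ • 𝒮ℒ := by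
  rintro _ ⟨γ, hγ, rfl⟩
  rw [Subgroup.mem_pointwise_smul_iff_inv_smul_mem, ← map_inv, inv_inv, ConjAct.toConjAct_smul]
  refine ⟨conjSL N γ hγ, ?_⟩
  rw [alphaGL_mul_mapGL N γ hγ]
  simp

lemma Gamma0_le_SL (N : ℕ) : (Gamma0 N : Subgroup (GL (Fin 2) ℝ)) ≤ 𝒮ℒ := by
  rintro _ ⟨γ, -, rfl⟩
  exact ⟨γ, rfl⟩

lemma alphaGL_det_pos (N : ℕ) [NeZero N] : 0 < (alphaGL N).det.val := by
  rw [alphaGL_det]
  exact_mod_cast Nat.pos_of_ne_zero (NeZero.ne N)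

lemma coe_alphaGL_smul (N : ℕ) [NeZero N] (z : ℍ) : ((alphaGL N • z : ℍ) : ℂ) = N * z := by
  obtain ⟨a00, a01, a10, a11⟩ := alphaGL_apply N
  rw [UpperHalfPlane.coe_smul_of_det_pos (alphaGL_det_pos N)]
  simp [UpperHalfPlane.num, UpperHalfPlane.denom, a00, a01, a10, a11]

lemma denom_alphaGL (N : ℕ) [NeZero N] (z : ℂ) : UpperHalfPlane.denom (alphaGL N) z = 1 := by
  obtain ⟨a00, a01, a10, a11⟩ := alphaGL_apply N
  simp [UpperHalfPlane.denom, a10, a11]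

lemma slash_alphaGL (N : ℕ) [NeZero N] (f : ℍ → ℂ) (k : ℤ) (z : ℍ) :
    (f ∣[k] alphaGL N) z = f (alphaGL N • z) * (N : ℂ) ^ (k - 1) := by
  rw [ModularForm.slash_def]
  simp only [denom_alphaGL, _root_.one_zpow, mul_one, alphaGL_det]
  rw [UpperHalfPlane.σ, if_pos (alphaGL_det_pos N)]
  simp

/-- The form `z ↦ f(N z)` on `Γ₀(N)`, for `f` of level one. -/
def scaleForm (N : ℕ) [NeZero N] {k : ℤ} (f : ModularForm 𝒮ℒ k) : ModularForm (Gamma0 N) k :=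
  ((N : ℂ) ^ (k - 1))⁻¹ • restrictLevel (Gamma0_le_conj N) (ModularForm.translate f (alphaGL N))

lemma scaleForm_apply (N : ℕ) [NeZero N] {k : ℤ} (f : ModularForm 𝒮ℒ k) (z : ℍ) :
    scaleForm N f z = f (alphaGL N • z) := by
  have hN : (N : ℂ) ≠ 0 := by exact_mod_cast NeZero.ne N
  rw [scaleForm, _root_.smul_apply, restrictLevel_apply, ModularForm.coe_translate, slash_alphaGL,
    smul_eq_mul]
  field_simp

lemma one_mem_strictPeriods_Gamma0' (N : ℕ) :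
    (1 : ℝ) ∈ (Gamma0 N : Subgroup (GL (Fin 2) ℝ)).strictPeriods := by
  simp [AddSubgroup.mem_zmultiples_iff]

lemma qParam_alphaGL_smul (N : ℕ) [NeZero N] (z : ℍ) :
    Function.Periodic.qParam 1 ((alphaGL N • z : ℍ) : ℂ) =
      Function.Periodic.qParam 1 (z : ℂ) ^ N := by
  rw [coe_alphaGL_smul, Function.Periodic.qParam, Function.Periodic.qParam, ← Complex.exp_nat_mul]
  congr 1
  push_cast
  ring

/-- The `q`-expansion of `scaleForm N f` is obtained from that of `f` by `q ↦ q ^ N`. -/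
theorem scaleForm_qExpansion_coeff (N : ℕ) [NeZero N] {k : ℤ} (f : ModularForm 𝒮ℒ k) (n : ℕ) :
    (qExpansion 1 (scaleForm N f)).coeff n =
      if N ∣ n then (qExpansion 1 f).coeff (n / N) else 0 := by
  have hN : 0 < N := Nat.pos_of_ne_zero (NeZero.ne N)
  symm
  refine ModularFormClass.qExpansion_coeff_unique
    (c := fun n => if N ∣ n then (qExpansion 1 f).coeff (n / N) else 0)
    one_pos (one_mem_strictPeriods_Gamma0' N) (f := scaleForm N f) (fun τ => ?_) n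
  have h1 := ModularForm.hasSum_qExpansion (f := f) one_pos one_mem_strictPeriods_SL
    (alphaGL N • τ)
  rw [qParam_alphaGL_smul, ← scaleForm_apply] at h1
  have hinj : Function.Injective (fun m : ℕ => N * m) :=
    fun a b h => Nat.eq_of_mul_eq_mul_left hN h
  rw [← hinj.hasSum_iff]
  · convert h1 using 2 with m
    simp [Function.comp, Nat.mul_div_cancel_left _ hN, pow_mul]
  · intro x hx
    have : ¬ N ∣ x := fun ⟨m, hm⟩ => hx ⟨m, hm.symm⟩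
    simp [this]

/-- The `q`-expansion of a restriction is unchanged. -/
theorem restrictLevel_qExpansion {Γ Γ' : Subgroup (GL (Fin 2) ℝ)} {k : ℤ} (h : Γ ≤ Γ')
    (f : ModularForm Γ' k) : qExpansion 1 (restrictLevel h f) = qExpansion 1 f := rfl

end

end Fermat.Agent.S28.H48
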