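/-
S28, package M2 (helper48): a tiny verified calculator for truncated power series.
`IsTbl L f t` says that the coefficients of `f : PowerSeries ℂ` below index `L` are the
integers listed in `t`.
-/
import Mathlib

set_option autoImplicit false

namespace Fermat.Agent.S28.H48

/-- The coefficients of `f` below index `L` are given by the integer list `t`
(entries beyond the end of the list are `0`). -/
def IsTbl (L : ℕ) (f : PowerSeries ℂ) (t : List ℤ) : Prop :=
  ∀ n < L, PowerSeries.coeff n f = ((t.getD n 0 : ℤ) : ℂ)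

/-- Build a table of length `L` from a function. -/
def tbl (L : ℕ) (g : ℕ → ℤ) : List ℤ := (List.range L).map g

theorem getD_tbl {L : ℕ} (g : ℕ → ℤ) {n : ℕ} (hn : n < L) : (tbl L g).getD n 0 = g n := by
  unfold tbl
  rw [List.getD_eq_getElem _ _ (by simpa using hn)]
  simp

theorem list_sum_range (g : ℕ → ℤ) (m : ℕ) :
    ((List.range m).map g).sum = ∑ i ∈ Finset.range m, g i := by
  induction m with
  | zero => simp
  | succ m ih =>
    rw [List.range_succ, List.map_append, List.sum_append, ih, Finset.sum_range_succ]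
    simp

/-- Truncated convolution of two tables. -/
def mulL (L : ℕ) (a b : List ℤ) : List ℤ :=
  tbl L fun n => ((List.range (n + 1)).map fun i => a.getD i 0 * b.getD (n - i) 0).sum

/-- Truncated sum of two tables. -/
def addL (L : ℕ) (a b : List ℤ) : List ℤ := tbl L fun n => a.getD n 0 + b.getD n 0

/-- Truncated difference of two tables. -/
def subL (L : ℕ) (a b : List ℤ) : List ℤ := tbl L fun n => a.getD n 0 - b.getD n 0

/-- Truncated scalar multiple of a table. -/
def smulL (L : ℕ) (c : ℤ) (a : List ℤ) : List ℤ := tbl L fun n => c * a.getD n 0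

/-- The table of `f(X ^ d)`. -/
def scaleL (L d : ℕ) (a : List ℤ) : List ℤ :=
  tbl L fun n => if d ∣ n then a.getD (n / d) 0 else 0

variable {L : ℕ} {f g : PowerSeries ℂ} {a b : List ℤ}

theorem IsTbl.of_eq {b : List ℤ} (h : IsTbl L f a) (e : a = b) : IsTbl L f b := e ▸ h

theorem IsTbl.congr {f' : PowerSeries ℂ} (h : IsTbl L f a) (e : f = f') : IsTbl L f' a := e ▸ h

theorem IsTbl.mul (hf : IsTbl L f a) (hg : IsTbl L g b) : IsTbl L (f * g) (mulL L a b) := by
  intro n hn
  rw [mulL, getD_tbl _ hn, PowerSeries.coeff_mul,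
    Finset.Nat.sum_antidiagonal_eq_sum_range_succ_mk, list_sum_range]
  push_cast
  refine Finset.sum_congr rfl fun i hi => ?_
  have hi' : i < n + 1 := Finset.mem_range.mp hi
  rw [hf i (by omega), hg (n - i) (by omega)]

theorem IsTbl.add (hf : IsTbl L f a) (hg : IsTbl L g b) : IsTbl L (f + g) (addL L a b) := by
  intro n hn
  rw [addL, getD_tbl _ hn, map_add, hf n hn, hg n hn]
  push_cast
  rfl

theorem IsTbl.sub (hf : IsTbl L f a) (hg : IsTbl L g b) : IsTbl L (f - g) (subL L a b) := by
  intro n hn
  rw [subL, getD_tbl _ hn, map_sub, hf n hn, hg n hn]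
  push_cast
  rfl

theorem IsTbl.smul (c : ℤ) (hf : IsTbl L f a) : IsTbl L ((c : ℂ) • f) (smulL L c a) := by
  intro n hn
  rw [smulL, getD_tbl _ hn, PowerSeries.coeff_smul, hf n hn]
  push_cast
  rfl

/-- Cancel an integer scalar. -/
theorem IsTbl.of_smul {c : ℤ} (hc : c ≠ 0) (hf : IsTbl L ((c : ℂ) • f) (smulL L c a)) :
    IsTbl L f (tbl L fun n => a.getD n 0) := by
  intro n hn
  have h := hf n hn
  rw [smulL, getD_tbl _ hn, PowerSeries.coeff_smul] at h
  rw [getD_tbl _ hn]
  have hc' : (c : ℂ) ≠ 0 := by exact_mod_cast hc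
  push_cast at h
  exact mul_left_cancel₀ hc' h

theorem IsTbl.pow_two (hf : IsTbl L f a) : IsTbl L (f ^ 2) (mulL L a a) := by
  rw [sq]; exact hf.mul hf

theorem IsTbl.pow_three (hf : IsTbl L f a) : IsTbl L (f ^ 3) (mulL L (mulL L a a) a) := by
  rw [_root_.pow_succ, sq]; exact (hf.mul hf).mul hf

/-- If all listed coefficients vanish, the coefficients below `L` vanish. -/
theorem IsTbl.coeff_eq_zero (hf : IsTbl L f (tbl L fun _ => 0)) {n : ℕ} (hn : n < L) :
    PowerSeries.coeff n f = 0 := by
  rw [hf n hn, getD_tbl _ hn]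
  simp

/-- Table of a series all of whose coefficients are described by a function. -/
theorem isTbl_of_coeff {t : ℕ → ℤ} (h : ∀ n < L, PowerSeries.coeff n f = ((t n : ℤ) : ℂ)) :
    IsTbl L f (tbl L t) := by
  intro n hn
  rw [getD_tbl _ hn, h n hn]

/-- Table of `f(X ^ d)`, given as a series `g` with the corresponding coefficients. -/
theorem IsTbl.scale {d : ℕ} (hf : IsTbl L f a)
    (hg : ∀ n, PowerSeries.coeff n g = if d ∣ n then PowerSeries.coeff (n / d) f else 0) :
    IsTbl L g (scaleL L d a) := by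
  intro n hn
  rw [scaleL, getD_tbl _ hn, hg n]
  split_ifs with h
  · exact hf _ (lt_of_le_of_lt (Nat.div_le_self n d) hn)
  · simp

end Fermat.Agent.S28.H48
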