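/-
S28, package M2 (helper48): coefficient tables of `E₄`, `E₆` and `Δ` (first 17 coefficients).
-/
import Fermat.Agent.S28.H48.Trunc
import Fermat.Agent.S28.H48.Scale

set_option autoImplicit false

open UpperHalfPlane ModularForm EisensteinSeries
open scoped MatrixGroups ArithmeticFunction.sigma

namespace Fermat.Agent.S28.H48

theorem E4_coeff (n : ℕ) : (qExpansion 1 E₄).coeff n =
    (((if n = 0 then 1 else 240 * ((σ 3 n : ℕ) : ℤ)) : ℤ) : ℂ) := by
  rw [E_qExpansion_coeff _ ⟨2, rfl⟩]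
  split_ifs with h
  · simp
  · norm_num [show bernoulli 4 = -1 / 30 by decide +kernel]

theorem E6_coeff (n : ℕ) : (qExpansion 1 E₆).coeff n =
    (((if n = 0 then 1 else -504 * ((σ 5 n : ℕ) : ℤ)) : ℤ) : ℂ) := by
  rw [E_qExpansion_coeff _ ⟨3, rfl⟩]
  split_ifs with h
  · simp
  · norm_num [show bernoulli 6 = 1 / 42 by decide +kernel]

/-- The first 17 coefficients of `E₄`. -/
def e4T : List ℤ := [1, 240, 2160, 6720, 17520, 30240, 60480, 82560, 140400, 181680, 272160, 319680, 490560, 527520, 743040, 846720, 1123440]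

/-- The first 17 coefficients of `E₆`. -/
def e6T : List ℤ := [1, -504, -16632, -122976, -532728, -1575504, -4058208, -8471232, -17047800, -29883672, -51991632, -81170208, -129985632, -187132176, -279550656, -384422976, -545530104]

/-- The first 17 coefficients of `Δ`. -/
def deltaT : List ℤ := [0, 1, -24, 252, -1472, 4830, -6048, -16744, 84480, -113643, -115920, 534612, -370944, -577738, 401856, 1217160, 987136]

set_option maxRecDepth 100000 in
theorem isTbl_E4 : IsTbl 17 (qExpansion 1 E₄) e4T :=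
  (isTbl_of_coeff (fun n _ => E4_coeff n)).of_eq (by decide)

set_option maxRecDepth 100000 in
theorem isTbl_E6 : IsTbl 17 (qExpansion 1 E₆) e6T :=
  (isTbl_of_coeff (fun n _ => E6_coeff n)).of_eq (by decide)

/-- `Δ` as a modular form of level one and weight 12. -/
noncomputable def deltaMF : ModularForm 𝒮ℒ 12 :=
  (1 / 1728 : ℂ) • (ModularForm.mcast (by decide) (E₄.pow 3) -
    ModularForm.mcast (by decide) (E₆.pow 2))

theorem deltaMF_apply (z : ℍ) : deltaMF z = ModularForm.discriminant z := by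
  rw [discriminant_eq_E₄_cube_sub_E₆_sq]
  simp only [deltaMF, smul_apply, sub_apply, ModularForm.coe_mcast,
    ModularForm.coe_pow, Pi.pow_apply, smul_eq_mul]
  ring

theorem qExpansion_deltaMF :
    ((1728 : ℤ) : ℂ) • qExpansion 1 deltaMF = qExpansion 1 E₄ ^ 3 - qExpansion 1 E₆ ^ 2 := by
  have hΓ := one_mem_strictPeriods_SL
  set A : ModularForm 𝒮ℒ 12 := ModularForm.mcast (by decide : (3 : ℕ) • (4 : ℤ) = 12) (E₄.pow 3)
    with hAdef
  set B : ModularForm 𝒮ℒ 12 := ModularForm.mcast (by decide : (2 : ℕ) • (6 : ℤ) = 12) (E₆.pow 2)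
    with hBdef
  have hA : qExpansion 1 A = qExpansion 1 E₄ ^ 3 := ModularForm.qExpansion_pow one_pos hΓ E₄ 3
  have hB : qExpansion 1 B = qExpansion 1 E₆ ^ 2 := ModularForm.qExpansion_pow one_pos hΓ E₆ 2
  have h2 : qExpansion 1 (A - B) = qExpansion 1 A - qExpansion 1 B :=
    ModularForm.qExpansion_sub one_pos hΓ A B
  have h3 : qExpansion 1 ((1 / 1728 : ℂ) • (A - B)) = (1 / 1728 : ℂ) • qExpansion 1 (A - B) :=
    ModularForm.qExpansion_smul one_pos hΓ (1 / 1728 : ℂ) (A - B)
  have h1 : qExpansion 1 deltaMF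
      = (1 / 1728 : ℂ) • (qExpansion 1 E₄ ^ 3 - qExpansion 1 E₆ ^ 2) := by
    rw [← hA, ← hB, ← h2, ← h3]
    rfl
  rw [h1, smul_smul]
  norm_num

set_option maxRecDepth 100000 in
theorem isTbl_delta : IsTbl 17 (qExpansion 1 deltaMF) deltaT := by
  have h := (isTbl_E4.pow_three).sub (isTbl_E6.pow_two)
  rw [← qExpansion_deltaMF] at h
  exact (IsTbl.of_smul (a := deltaT) (by norm_num) (h.of_eq (by decide))).of_eq (by decide)

end Fermat.Agent.S28.H48
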