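/-
S28, package M2 (helper48): `IsQ N k s` — the power series `s` is the `q`-expansion of a
modular form of weight `k` on `Γ₀(N)` — with its closure properties and the Sturm bound.
-/
import Fermat.Agent.S28.H48.Tables
import Fermat.Agent.S20.H69.Index
import Fermat.Prelude.Thm_ModularForm_sturm_bound_Gamma0

set_option autoImplicit false

open UpperHalfPlane CongruenceSubgroup ModularForm Matrix
open scoped MatrixGroups ModularForm Pointwise

namespace Fermat.Agent.S28.H48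

noncomputable section

theorem dedekindPsi_two : ModularCurve.dedekindPsi 2 = 3 := by decide +kernel

theorem dedekindPsi_three : ModularCurve.dedekindPsi 3 = 4 := by decide +kernel

theorem index_Gamma0_two : (Gamma0 2).index = 3 := by
  rw [Fermat.Agent.S20.H69.index_Gamma0, dedekindPsi_two]

theorem index_Gamma0_three : (Gamma0 3).index = 4 := by
  rw [Fermat.Agent.S20.H69.index_Gamma0, dedekindPsi_three]

/-- `s` is the `q`-expansion (at `∞`, in `q = e^{2πiτ}`) of a modular form of weight `k`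
on `Γ₀(N)`. -/
def IsQ (N : ℕ) (k : ℤ) (s : PowerSeries ℂ) : Prop :=
  ∃ f : ModularForm (Gamma0 N) k, qExpansion 1 f = s

variable {N : ℕ} {k l : ℤ} {s t : PowerSeries ℂ}

theorem IsQ.cast (hs : IsQ N k s) (h : k = l) : IsQ N l s := h ▸ hs

theorem IsQ.mul (hs : IsQ N k s) (ht : IsQ N l t) : IsQ N (k + l) (s * t) := by
  obtain ⟨f, rfl⟩ := hs
  obtain ⟨g, rfl⟩ := ht
  exact ⟨f.mul g, ModularForm.qExpansion_mul one_pos (one_mem_strictPeriods_Gamma0' N) f g⟩

theorem IsQ.pow (hs : IsQ N k s) (n : ℕ) : IsQ N (n * k) (s ^ n) := by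
  obtain ⟨f, rfl⟩ := hs
  exact ⟨f.pow n, ModularForm.qExpansion_pow one_pos (one_mem_strictPeriods_Gamma0' N) f n⟩

theorem IsQ.add (hs : IsQ N k s) (ht : IsQ N k t) : IsQ N k (s + t) := by
  obtain ⟨f, rfl⟩ := hs
  obtain ⟨g, rfl⟩ := ht
  exact ⟨f + g, ModularForm.qExpansion_add one_pos (one_mem_strictPeriods_Gamma0' N) f g⟩

theorem IsQ.sub (hs : IsQ N k s) (ht : IsQ N k t) : IsQ N k (s - t) := by
  obtain ⟨f, rfl⟩ := hs
  obtain ⟨g, rfl⟩ := ht
  exact ⟨f - g, ModularForm.qExpansion_sub one_pos (one_mem_strictPeriods_Gamma0' N) f g⟩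

theorem IsQ.smul (c : ℂ) (hs : IsQ N k s) : IsQ N k (c • s) := by
  obtain ⟨f, rfl⟩ := hs
  exact ⟨c • f, ModularForm.qExpansion_smul one_pos (one_mem_strictPeriods_Gamma0' N) c f⟩

/-- **Sturm bound** in `IsQ` form: a `q`-expansion of weight `k` on `Γ₀(N)` vanishing to
order `> k·[SL₂(ℤ):Γ₀(N)]/12` is zero. -/
theorem IsQ.eq_zero [NeZero N] (hs : IsQ N k s)
    (h : ∀ n : ℕ, n ≤ (k * (Gamma0 N).index).toNat / 12 → s.coeff n = 0) : s = 0 := by
  obtain ⟨f, rfl⟩ := hs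
  have hf : f = 0 := ModularForm.sturm_bound_Gamma0 N f h
  rw [hf]
  exact qExpansion_zero 1

/-- Sturm bound from a table of vanishing coefficients. -/
theorem IsQ.eq_zero_of_isTbl [NeZero N] {L : ℕ} (hs : IsQ N k s)
    (hL : (k * (Gamma0 N).index).toNat / 12 < L) (ht : IsTbl L s (tbl L fun _ => 0)) : s = 0 :=
  hs.eq_zero fun _ hn => ht.coeff_eq_zero (lt_of_le_of_lt hn hL)

/-! ### The basic forms -/

/-- The `q`-expansion of `E₄`. -/
def qE : PowerSeries ℂ := qExpansion 1 E₄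

/-- The `q`-expansion of `Δ`. -/
def qD : PowerSeries ℂ := qExpansion 1 deltaMF

/-- The `q`-expansion of `E₄(dτ)`. -/
def qEs (d : ℕ) [NeZero d] : PowerSeries ℂ := qExpansion 1 (scaleForm d E₄)

/-- The `q`-expansion of `Δ(dτ)`. -/
def qDs (d : ℕ) [NeZero d] : PowerSeries ℂ := qExpansion 1 (scaleForm d deltaMF)

theorem isQ_E (N : ℕ) : IsQ N 4 qE := ⟨restrictLevel (Gamma0_le_SL N) E₄, rfl⟩

theorem isQ_D (N : ℕ) : IsQ N 12 qD := ⟨restrictLevel (Gamma0_le_SL N) deltaMF, rfl⟩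

theorem isQ_Es (N : ℕ) [NeZero N] : IsQ N 4 (qEs N) := ⟨scaleForm N E₄, rfl⟩

theorem isQ_Ds (N : ℕ) [NeZero N] : IsQ N 12 (qDs N) := ⟨scaleForm N deltaMF, rfl⟩

theorem coeff_qEs (d : ℕ) [NeZero d] (n : ℕ) :
    (qEs d).coeff n = if d ∣ n then qE.coeff (n / d) else 0 :=
  scaleForm_qExpansion_coeff d E₄ n

theorem coeff_qDs (d : ℕ) [NeZero d] (n : ℕ) :
    (qDs d).coeff n = if d ∣ n then qD.coeff (n / d) else 0 :=
  scaleForm_qExpansion_coeff d deltaMF n

theorem isTbl_qE : IsTbl 17 qE e4T := isTbl_E4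

theorem isTbl_qD : IsTbl 17 qD deltaT := isTbl_delta

theorem isTbl_qEs (d : ℕ) [NeZero d] : IsTbl 17 (qEs d) (scaleL 17 d e4T) :=
  isTbl_qE.scale (coeff_qEs d)

theorem isTbl_qDs (d : ℕ) [NeZero d] : IsTbl 17 (qDs d) (scaleL 17 d deltaT) :=
  isTbl_qD.scale (coeff_qDs d)

end

end Fermat.Agent.S28.H48
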