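/-
S28, package M2 (helper48): the level 2 and level 3 Hauptmodul identities.

First as identities between `q`-expansions of modular forms on `Γ₀(2)` (weight 36) and
`Γ₀(3)` (weight 48), proved by the Sturm bound from the first 17 coefficients; then transferred
to the integral formal power series of the Prelude (`eisenstein4`, `etaProd`), in the
canonical shapes of the S28 skeleton (`Fermat.Agent.S28.level2_a` etc.).
-/
import Fermat.Agent.S28.H48.Forms
import Fermat.Agent.S28.Defs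
import Fermat.Agent.S24.H76.JBridge

set_option autoImplicit false

open UpperHalfPlane CongruenceSubgroup ModularForm Matrix
open scoped MatrixGroups ModularForm Pointwise

namespace Fermat.Agent.S28.H48

noncomputable section

/-! ### The identities over `ℂ` -/

set_option maxRecDepth 100000 in
/-- `E₄³ Δ Δ(2τ) = (Δ + 256 Δ(2τ))³`, i.e. `j h² = (h + 256)³` for `h = Δ/Δ(2τ)`. -/
theorem level2_aC :
    qE ^ 3 * qD * qDs 2 - (qD + ((256 : ℤ) : ℂ) • qDs 2) ^ 3 = 0 := by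
  have hF : IsQ 2 36 (qE ^ 3 * qD * qDs 2 - (qD + ((256 : ℤ) : ℂ) • qDs 2) ^ 3) :=
    ((((isQ_E 2).pow 3).mul (isQ_D 2)).mul (isQ_Ds 2)).cast (by norm_num) |>.sub
      ((((isQ_D 2).add ((isQ_Ds 2).smul _)).pow 3).cast (by norm_num))
  refine hF.eq_zero_of_isTbl (L := 17) ?_ ?_
  · rw [index_Gamma0_two]; decide
  · exact ((((isTbl_qE.pow_three).mul isTbl_qD).mul (isTbl_qDs 2)).sub
      ((isTbl_qD.add ((isTbl_qDs 2).smul 256)).pow_three)).of_eq (by decide +kernel)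

set_option maxRecDepth 100000 in
/-- `E₄(2τ)³ Δ Δ(2τ) = (Δ + 16 Δ(2τ))³`, i.e. `j(2τ) h = (h + 16)³` for `h = Δ/Δ(2τ)`. -/
theorem level2_bC :
    qEs 2 ^ 3 * qD * qDs 2 - (qD + ((16 : ℤ) : ℂ) • qDs 2) ^ 3 = 0 := by
  have hF : IsQ 2 36 (qEs 2 ^ 3 * qD * qDs 2 - (qD + ((16 : ℤ) : ℂ) • qDs 2) ^ 3) :=
    ((((isQ_Es 2).pow 3).mul (isQ_D 2)).mul (isQ_Ds 2)).cast (by norm_num) |>.sub
      ((((isQ_D 2).add ((isQ_Ds 2).smul _)).pow 3).cast (by norm_num))
  refine hF.eq_zero_of_isTbl (L := 17) ?_ ?_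
  · rw [index_Gamma0_two]; decide
  · exact (((((isTbl_qEs 2).pow_three).mul isTbl_qD).mul (isTbl_qDs 2)).sub
      ((isTbl_qD.add ((isTbl_qDs 2).smul 16)).pow_three)).of_eq (by decide +kernel)

set_option maxRecDepth 100000 in
/-- The (squared) level 3 identity for `j`:
`Δ Δ(3τ) (E₄³ - 756 Δ - 19131876 Δ(3τ))² = (Δ² + 196830 Δ Δ(3τ) + 3¹⁸ Δ(3τ)²)²`. -/
theorem level3_aC :
    qD * qDs 3 * (qE ^ 3 - ((756 : ℤ) : ℂ) • qD - ((19131876 : ℤ) : ℂ) • qDs 3) ^ 2 -
      (qD ^ 2 + ((196830 : ℤ) : ℂ) • (qD * qDs 3) + ((387420489 : ℤ) : ℂ) • qDs 3 ^ 2) ^ 2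
        = 0 := by
  have hF : IsQ 3 48
      (qD * qDs 3 * (qE ^ 3 - ((756 : ℤ) : ℂ) • qD - ((19131876 : ℤ) : ℂ) • qDs 3) ^ 2 -
      (qD ^ 2 + ((196830 : ℤ) : ℂ) • (qD * qDs 3) + ((387420489 : ℤ) : ℂ) • qDs 3 ^ 2) ^ 2) :=
    (((isQ_D 3).mul (isQ_Ds 3)).mul
      ((((((isQ_E 3).pow 3).cast (by norm_num : ((3 : ℕ) : ℤ) * 4 = 12)).sub
        ((isQ_D 3).smul _)).sub ((isQ_Ds 3).smul _)).pow 2)).cast (by norm_num) |>.sub
      ((((((isQ_D 3).pow 2).cast (by norm_num : ((2 : ℕ) : ℤ) * 12 = 24)).add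
        ((((isQ_D 3).mul (isQ_Ds 3)).cast (by norm_num : (12 : ℤ) + 12 = 24)).smul _)).add
        ((((isQ_Ds 3).pow 2).cast (by norm_num : ((2 : ℕ) : ℤ) * 12 = 24)).smul _)).pow 2 |>.cast
          (by norm_num))
  refine hF.eq_zero_of_isTbl (L := 17) ?_ ?_
  · rw [index_Gamma0_three]; decide
  · exact (((isTbl_qD.mul (isTbl_qDs 3)).mul
      ((((isTbl_qE.pow_three).sub (isTbl_qD.smul 756)).sub
        ((isTbl_qDs 3).smul 19131876)).pow_two)).sub
      ((((isTbl_qD.pow_two).add ((isTbl_qD.mul (isTbl_qDs 3)).smul 196830)).add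
        (((isTbl_qDs 3).pow_two).smul 387420489)).pow_two)).of_eq (by decide +kernel)

set_option maxRecDepth 100000 in
/-- The (squared) level 3 identity for `j(3τ)`:
`Δ Δ(3τ) (E₄(3τ)³ - 36 Δ - 756 Δ(3τ))² = (Δ² + 270 Δ Δ(3τ) + 729 Δ(3τ)²)²`. -/
theorem level3_bC :
    qD * qDs 3 * (qEs 3 ^ 3 - ((36 : ℤ) : ℂ) • qD - ((756 : ℤ) : ℂ) • qDs 3) ^ 2 -
      (qD ^ 2 + ((270 : ℤ) : ℂ) • (qD * qDs 3) + ((729 : ℤ) : ℂ) • qDs 3 ^ 2) ^ 2 = 0 := by
  have hF : IsQ 3 48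
      (qD * qDs 3 * (qEs 3 ^ 3 - ((36 : ℤ) : ℂ) • qD - ((756 : ℤ) : ℂ) • qDs 3) ^ 2 -
      (qD ^ 2 + ((270 : ℤ) : ℂ) • (qD * qDs 3) + ((729 : ℤ) : ℂ) • qDs 3 ^ 2) ^ 2) :=
    (((isQ_D 3).mul (isQ_Ds 3)).mul
      ((((((isQ_Es 3).pow 3).cast (by norm_num : ((3 : ℕ) : ℤ) * 4 = 12)).sub
        ((isQ_D 3).smul _)).sub ((isQ_Ds 3).smul _)).pow 2)).cast (by norm_num) |>.sub
      ((((((isQ_D 3).pow 2).cast (by norm_num : ((2 : ℕ) : ℤ) * 12 = 24)).add
        ((((isQ_D 3).mul (isQ_Ds 3)).cast (by norm_num : (12 : ℤ) + 12 = 24)).smul _)).add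
        ((((isQ_Ds 3).pow 2).cast (by norm_num : ((2 : ℕ) : ℤ) * 12 = 24)).smul _)).pow 2 |>.cast
          (by norm_num))
  refine hF.eq_zero_of_isTbl (L := 17) ?_ ?_
  · rw [index_Gamma0_three]; decide
  · exact (((isTbl_qD.mul (isTbl_qDs 3)).mul
      (((((isTbl_qEs 3).pow_three).sub (isTbl_qD.smul 36)).sub
        ((isTbl_qDs 3).smul 756)).pow_two)).sub
      ((((isTbl_qD.pow_two).add ((isTbl_qD.mul (isTbl_qDs 3)).smul 270)).add
        (((isTbl_qDs 3).pow_two).smul 729)).pow_two)).of_eq (by decide +kernel)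

/-! ### Bridge to the integral formal series of the Prelude -/

open ModularCurve

/-- The `q`-expansion of `E₄` is the base change of the formal series `eisenstein4`. -/
theorem map_eisenstein4 : eisenstein4.map (Int.castRingHom ℂ) = qE :=
  Fermat.Agent.S24.H76.qExpansion_E4.symm

/-- The `q`-expansion of `Δ` is the base change of the formal series `deltaPS = q ∏ (1-qⁿ)²⁴`. -/
theorem map_deltaPS : deltaPS.map (Int.castRingHom ℂ) = qD := by
  have h : (deltaMF : ℍ → ℂ) = ModularForm.discriminant := funext deltaMF_apply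
  rw [qD, h, Fermat.Agent.S24.H76.qExpansion_discriminant, deltaPS, dedekindEtaUnit, map_mul,
    PowerSeries.map_X]

theorem map_vPS_eisenstein4 (d : ℕ) [NeZero d] :
    (vPS d eisenstein4).map (Int.castRingHom ℂ) = qEs d := by
  ext n
  rw [PowerSeries.coeff_map, PowerSeries.coeff_expand, coeff_qEs, ← map_eisenstein4]
  split_ifs
  · rw [PowerSeries.coeff_map]
  · simp

theorem map_vPS_deltaPS (d : ℕ) [NeZero d] :
    (vPS d deltaPS).map (Int.castRingHom ℂ) = qDs d := by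
  ext n
  rw [PowerSeries.coeff_map, PowerSeries.coeff_expand, coeff_qDs, ← map_deltaPS]
  split_ifs
  · rw [PowerSeries.coeff_map]
  · simp

theorem intCast_smul_eq (c : ℤ) (x : PowerSeries ℂ) :
    ((c : ℤ) : ℂ) • x = (c : PowerSeries ℂ) * x := by
  rw [PowerSeries.smul_eq_C_mul, map_intCast]

theorem map_intCast_injective :
    Function.Injective (PowerSeries.map (Int.castRingHom ℂ)) :=
  PowerSeries.map_injective _ Int.cast_injective

end

end Fermat.Agent.S28.H48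

namespace Fermat.Agent.S28

open ModularCurve Fermat.Agent.S28.H48

/-- **M2, level 2 (a)**: `E₄³ Δ Δ(q²) = (Δ + 256 Δ(q²))³` in `ℤ⟦q⟧`. -/
theorem level2_a :
    eisenstein4 ^ 3 * deltaPS * vPS 2 deltaPS = (deltaPS + 256 * vPS 2 deltaPS) ^ 3 := by
  apply map_intCast_injective
  have h := sub_eq_zero.mp level2_aC
  simp only [intCast_smul_eq] at h
  simp only [Int.cast_ofNat] at h
  simp only [map_mul, map_pow, map_add, map_ofNat, map_eisenstein4, map_deltaPS,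
    map_vPS_deltaPS]
  linear_combination h

/-- **M2, level 2 (b)**: `E₄(q²)³ Δ Δ(q²) = (Δ + 16 Δ(q²))³` in `ℤ⟦q⟧`. -/
theorem level2_b :
    (vPS 2 eisenstein4) ^ 3 * deltaPS * vPS 2 deltaPS = (deltaPS + 16 * vPS 2 deltaPS) ^ 3 := by
  apply map_intCast_injective
  have h := sub_eq_zero.mp level2_bC
  simp only [intCast_smul_eq] at h
  simp only [Int.cast_ofNat] at h
  simp only [map_mul, map_pow, map_add, map_ofNat, map_vPS_eisenstein4, map_deltaPS,
    map_vPS_deltaPS]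
  linear_combination h

/-- **M2, level 3 (a)** (squared form) in `ℤ⟦q⟧`. -/
theorem level3_a :
    deltaPS * vPS 3 deltaPS * (eisenstein4 ^ 3 - 756 * deltaPS - 19131876 * vPS 3 deltaPS) ^ 2 =
      (deltaPS ^ 2 + 196830 * deltaPS * vPS 3 deltaPS + 387420489 * vPS 3 deltaPS ^ 2) ^ 2 := by
  apply map_intCast_injective
  have h := sub_eq_zero.mp level3_aC
  simp only [intCast_smul_eq] at h
  simp only [Int.cast_ofNat] at h
  simp only [map_mul, map_pow, map_add, map_sub, map_ofNat, map_eisenstein4, map_deltaPS,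
    map_vPS_deltaPS]
  linear_combination h

/-- **M2, level 3 (b)** (squared form) in `ℤ⟦q⟧`. -/
theorem level3_b :
    deltaPS * vPS 3 deltaPS * ((vPS 3 eisenstein4) ^ 3 - 36 * deltaPS - 756 * vPS 3 deltaPS) ^ 2 =
      (deltaPS ^ 2 + 270 * deltaPS * vPS 3 deltaPS + 729 * vPS 3 deltaPS ^ 2) ^ 2 := by
  apply map_intCast_injective
  have h := sub_eq_zero.mp level3_bC
  simp only [intCast_smul_eq] at h
  simp only [Int.cast_ofNat] at h
  simp only [map_mul, map_pow, map_add, map_sub, map_ofNat, map_vPS_eisenstein4, map_deltaPS,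
    map_vPS_deltaPS]
  linear_combination h

end Fermat.Agent.S28
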